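import Fermat.Agent.MultDetect.Main
import Fermat.Agent.MultSupport.Rational

/-!
# Exponential congruences

An exponential congruence soluble modulo almost every prime is soluble in integers.
-/

set_option autoImplicit false
set_option linter.unusedSectionVars false

noncomputable section

open NumberField IsDedekindDomain
open FA.HasseCyclic (nearOne)

namespace FA.MultDetect

universe u

variable {K : Type u} [Field K] [NumberField K]

/-- **Exponential congruences** over a number field. -/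
theorem exists_prod_zpow_eq {ι : Type*} [Fintype ι] (a : ι → Kˣ) (b : Kˣ)
    {B : Set (HeightOneSpectrum (𝓞 K))} (hB : B.Finite)
    (h : ∀ v ∉ B, ∃ e : ι → ℤ, v.valuation K ((b : K) / ∏ i, (a i : K) ^ e i - 1) < 1) :
    ∃ e : ι → ℤ, ∏ i, a i ^ e i = b := by
  classical
  let s : Multiplicative (ι → ℤ) →* Kˣ :=
    MonoidHom.mk' (fun e => ∏ i, a i ^ Multiplicative.toAdd e i) fun e e' => by
      rw [← Finset.prod_mul_distrib]
      exact Finset.prod_congr rfl fun i _ => zpow_add (a i) _ _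
  have : Group.FG (Multiplicative (ι → ℤ)) :=
    AddGroup.fg_iff_mul_fg.1 (Module.Finite.iff_addGroup_fg.1 inferInstance)
  obtain ⟨e, he⟩ := DetectAE.mem (Γ := s.range) (y := b) ⟨B, hB, fun v hv => by
    obtain ⟨e, he⟩ := h v hv
    refine ⟨s (Multiplicative.ofAdd e), ⟨_, rfl⟩, MultSupport.mem_nearOne_zero_iff.2 ?_⟩
    simpa [s, Units.val_div_eq_div_val] using he⟩
    ((Group.fg_iff_subgroup_fg _).1 (Group.fg_range s))
  exact ⟨Multiplicative.toAdd e, he⟩

/-- **Exponential congruences** over the rationals. -/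
theorem exists_prod_zpow_eq_rat {ι : Type*} [Fintype ι] (a : ι → ℤ) (b : ℤ)
    (ha : ∀ i, a i ≠ 0) (hb : b ≠ 0) {B : Set ℕ} (hB : B.Finite)
    (h : ∀ p : ℕ, p.Prime → p ∉ B → ∃ e : ι → ℕ, (p : ℤ) ∣ b - ∏ i, a i ^ e i) :
    ∃ e : ι → ℤ, ∏ i, (a i : ℚ) ^ e i = b := by
  classical
  let au : ι → ℚˣ := fun i => Units.mk0 (a i : ℚ) (Int.cast_ne_zero.2 (ha i))
  let N : ℤ := ∏ i, a i
  have hN : N ≠ 0 := Finset.prod_ne_zero_iff.2 fun i _ => ha i
  obtain ⟨e, he⟩ := exists_prod_zpow_eq au (Units.mk0 (b : ℚ) (Int.cast_ne_zero.2 hb))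
    (B := {v : HeightOneSpectrum (𝓞 ℚ) | ∃ p ∈ B, 0 < p ∧ (p : 𝓞 ℚ) ∈ v.asIdeal} ∪
      {v | (N : 𝓞 ℚ) ∈ v.asIdeal}) (by
      refine Set.Finite.union ?_ ?_
      · refine (hB.biUnion fun p _ => (?_ : {v : HeightOneSpectrum (𝓞 ℚ) |
          0 < p ∧ (p : 𝓞 ℚ) ∈ v.asIdeal}.Finite)).subset fun v ⟨p, hp, hv⟩ =>
            Set.mem_biUnion hp hv
        rcases Nat.eq_zero_or_pos p with rfl | hp
        · simp
        exact (Ideal.finite_factors (I := Ideal.span {(p : 𝓞 ℚ)}) (by simpa using hp.ne')).subset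
          fun v hv => Ideal.dvd_span_singleton.2 hv.2
      · exact (Ideal.finite_factors (I := Ideal.span {(N : 𝓞 ℚ)}) (by simpa using hN)).subset
          fun v hv => Ideal.dvd_span_singleton.2 hv) fun v hv => by
      obtain ⟨hvB, hvN⟩ := not_or.1 hv
      obtain ⟨M, hM0, hM⟩ : ∃ M : ℕ, M ≠ 0 ∧ (M : 𝓞 ℚ) ∈ v.asIdeal :=
        ⟨Ideal.absNorm v.asIdeal, fun h0 => v.ne_bot (Ideal.absNorm_eq_zero_iff.1 h0),
          Ideal.absNorm_mem _⟩
      obtain ⟨p, hp, -, hpv⟩ := MultSupport.exists_prime_factor_mem v.asIdeal M hM0 hM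
      obtain ⟨e, c, hc⟩ := h p hp fun hpB => hvB ⟨p, hpB, hp.pos, hpv⟩
      refine ⟨fun i => (e i : ℤ), ?_⟩
      have hP : v.valuation ℚ ((∏ i, a i ^ e i : ℤ) : ℚ) = 1 := by
        rw [← map_intCast (algebraMap (𝓞 ℚ) ℚ), v.valuation_of_algebraMap,
          v.intValuation_eq_one_iff, Int.cast_prod]
        intro hmem
        have := v.isPrime
        obtain ⟨i, -, hi⟩ := Ideal.IsPrime.prod_mem_iff.1 hmem
        rw [Int.cast_pow] at hi
        refine hvN ?_
        show ((N : ℤ) : 𝓞 ℚ) ∈ v.asIdeal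
        rw [Int.cast_prod, ← Finset.mul_prod_erase _ _ (Finset.mem_univ i)]
        exact Ideal.mul_mem_right _ _ (v.isPrime.mem_of_pow_mem _ hi)
      have hP0 : ((∏ i, a i ^ e i : ℤ) : ℚ) ≠ 0 := fun h0 => by
        rw [h0, map_zero] at hP
        exact zero_ne_one hP
      rw [show ((Units.mk0 (b : ℚ) (Int.cast_ne_zero.2 hb) : ℚˣ) : ℚ) /
          ∏ i, (au i : ℚ) ^ (e i : ℤ) - 1 =
          ((b - ∏ i, a i ^ e i : ℤ) : ℚ) / ((∏ i, a i ^ e i : ℤ) : ℚ) by
        rw [Int.cast_sub, sub_div, div_self hP0]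
        simp [au], map_div₀, hP, div_one, ← map_intCast (algebraMap (𝓞 ℚ) ℚ),
        v.valuation_of_algebraMap, v.intValuation_lt_one_iff_mem, hc, Int.cast_mul,
        Int.cast_natCast]
      exact Ideal.mul_mem_right _ _ hpv
  exact ⟨e, by simpa [au] using congrArg Units.val he⟩

end FA.MultDetect

end
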