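import Fermat.Agent.MultDetect.Radical

/-!
# Residues in a finitely generated group

If `y` is congruent to some element of a finitely generated group `Γ` at almost every prime then,
for each prime `ℓ`, some power of `y` prime to `ℓ` lies in `Γ` up to a root of unity.
-/

set_option autoImplicit false
set_option linter.unusedSectionVars false

noncomputable section

open NumberField IsDedekindDomain IntermediateField
open FA.ArtinRec FA.LocalCFT
open FA.HasseCyclic (nearOne)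

namespace FA.MultDetect

universe u

variable {K : Type u} [Field K] [NumberField K]

/-- `y` lies in `Γ` modulo almost every prime. -/
def DetectAE (Γ : Subgroup Kˣ) (y : Kˣ) : Prop :=
  ∃ B : Set (HeightOneSpectrum (𝓞 K)), B.Finite ∧ ∀ v ∉ B, ∃ γ ∈ Γ, y / γ ∈ nearOne v 0

variable {Γ : Subgroup Kˣ} {y : Kˣ}

/-- Powers and translations preserve detection. -/
theorem DetectAE.zpow_div (h : DetectAE Γ y) (m : ℤ) {γ : Kˣ} (hγ : γ ∈ Γ) :
    DetectAE Γ (y ^ m / γ) := by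
  obtain ⟨B, hB, hy⟩ := h
  refine ⟨B, hB, fun v hv => ?_⟩
  obtain ⟨δ, hδ, hyδ⟩ := hy v hv
  refine ⟨δ ^ m / γ, div_mem (zpow_mem hδ m) hγ, ?_⟩
  rw [div_div_div_cancel_right, ← div_zpow]
  exact zpow_mem hyδ m

variable (ℓ : ℕ) [hℓ : Fact ℓ.Prime]

local notation "Ω" => AlgebraicClosure K

/-- A chosen root in the algebraic closure. -/
def radical (N : ℕ) [NeZero N] (a : Kˣ) : Ω :=
  (IsAlgClosed.exists_pow_nat_eq (algebraMap K Ω (a : K)) (NeZero.pos N)).choose

theorem radical_pow (N : ℕ) [NeZero N] (a : Kˣ) : radical N a ^ N = algebraMap K Ω (a : K) :=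
  (IsAlgClosed.exists_pow_nat_eq (algebraMap K Ω (a : K)) (NeZero.pos N)).choose_spec

theorem radical_ne_zero (N : ℕ) [NeZero N] (a : Kˣ) : radical N a ≠ 0 := fun h0 =>
  a.ne_zero ((map_eq_zero (algebraMap K Ω)).1
    (by rw [← radical_pow N a, h0, zero_pow (NeZero.ne N)]))

/-- The monomials in the radicals are the radicals of the group. -/
theorem exists_pow_eq_of_mem_closure (N : ℕ) [NeZero N] {S : Finset Kˣ}
    {g : Ω} (hg : g ∈ Submonoid.closure (radical N '' (S : Set Kˣ))) :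
    ∃ γ ∈ Subgroup.closure (S : Set Kˣ), g ^ N = algebraMap K Ω (γ : K) := by
  induction hg using Submonoid.closure_induction with
  | mem b hb =>
    obtain ⟨a, ha, rfl⟩ := hb
    exact ⟨a, Subgroup.subset_closure ha, radical_pow N a⟩
  | one => exact ⟨1, one_mem _, by simp⟩
  | mul b b' _ _ h h' =>
    obtain ⟨γ, hγ, hb⟩ := h
    obtain ⟨γ', hγ', hb'⟩ := h'
    exact ⟨γ * γ', mul_mem hγ hγ', by rw [mul_pow, hb, hb', Units.val_mul, map_mul]⟩

/-- **Kummer**: `y` is a power in the tower up to an element of `Γ`. -/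
theorem DetectAE.exists_root_tower (h : DetectAE Γ y) (hΓ : Γ.FG) (k : ℕ) :
    ∃ γ ∈ Γ, ∃ f : tower K ℓ k, f ^ ℓ ^ k = algebraMap K (tower K ℓ k) ((y / γ : Kˣ) : K) := by
  classical
  obtain ⟨S, rfl⟩ := hΓ
  set N := ℓ ^ k
  set F := tower K ℓ k
  have : NeZero N := ⟨pow_ne_zero k hℓ.out.ne_zero⟩
  let M : IntermediateField F Ω := adjoin F ((S.image (radical N) : Finset Ω) : Set Ω)
  have : FiniteDimensional F M :=
    finiteDimensional_adjoin fun x _ => Algebra.IsIntegral.isIntegral x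
  have : NumberField M := NumberField.of_module_finite F M
  have : HasEnoughRootsOfUnity M N :=
    ⟨⟨_, (towerGen_spec K ℓ k).map_of_injective (f := algebraMap F M)
      (algebraMap F M).injective⟩, inferInstance⟩
  have hpow : ∀ γ ∈ Subgroup.closure (S : Set Kˣ), ∃ r : Mˣ, r ^ N = baseU γ := by
    intro γ hγ
    have hle : Subgroup.closure (S : Set Kˣ) ≤
        ((powMonoidHom N : Mˣ →* Mˣ).range).comap (baseU (L := M)) :=
      (Subgroup.closure_le _).2 fun a ha => ⟨Units.mk0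
        ⟨radical N a, subset_adjoin F _ (Finset.mem_image_of_mem _ ha)⟩
        fun h0 => radical_ne_zero N a (congrArg Subtype.val h0),
        Units.ext (Subtype.ext (radical_pow N a))⟩
    exact hle hγ
  have hres : IsResidueAE N (baseU (L := M) y) := by
    obtain ⟨B, hB, hy⟩ := h
    refine ⟨↑(primesAbove M hB.toFinset), (primesAbove M hB.toFinset).finite_toSet,
      fun Q hQ => ?_⟩
    rw [Finset.mem_coe, mem_primesAbove, Set.Finite.mem_toFinset] at hQ
    obtain ⟨γ, hγ, hyγ⟩ := hy _ hQ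
    obtain ⟨r, hr⟩ := hpow γ hγ
    exact ⟨r, by rw [hr, ← map_div]; exact (MultSupport.baseU_mem_nearOne_iff _).2 hyγ⟩
  obtain ⟨z, hz⟩ := hres.exists_root M
  have hzy : (z : Ω) ^ N = algebraMap K Ω (y : K) := congrArg Subtype.val hz
  have hK : ∀ c : K, algebraMap K Ω c ∈ (algebraMap F Ω).range := fun c =>
    ⟨algebraMap K F c, (IsScalarTower.algebraMap_apply K F Ω c).symm⟩
  have : IsGalois K Ω := { }
  have : IsGalois F Ω := IsGalois.tower_top_of_isGalois K F Ω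
  obtain ⟨f, g, hg, hfg⟩ := exists_eq_mul_monomial (F := F) (N := N)
    (fun ζ hζ => ⟨⟨ζ, mem_tower_of_pow_eq_one K ℓ hζ⟩, rfl⟩) (S.image (radical N))
    (fun b hb => by
      obtain ⟨a, -, rfl⟩ := Finset.mem_image.1 hb
      exact ⟨radical_ne_zero N a, by rw [radical_pow]; exact hK _⟩)
    z.2 (by rw [hzy]; exact hK _)
  rw [Finset.coe_image] at hg
  obtain ⟨γ, hγ, hgγ⟩ := exists_pow_eq_of_mem_closure N hg
  refine ⟨γ, hγ, f, Subtype.ext ?_⟩
  show (algebraMap F Ω f) ^ N = algebraMap K Ω ((y / γ : Kˣ) : K)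
  rw [Units.val_div_eq_div_val, map_div₀, ← hzy, ← hgγ, hfg, mul_pow,
    mul_div_cancel_right₀ _ (hgγ ▸ (map_ne_zero _).2 γ.ne_zero)]

/-- **One prime at a time.** -/
theorem DetectAE.exists_zpow_mem (h : DetectAE Γ y) (hΓ : Γ.FG) :
    ∃ (m : ℤ) (γ ξ : Kˣ), ¬ (ℓ : ℤ) ∣ m ∧ γ ∈ Γ ∧ ξ ^ ℓ ^ Module.finrank ℚ K = 1 ∧
      y ^ m = γ * ξ := by
  classical
  obtain ⟨S, hS⟩ := id hΓ
  set c := Module.finrank ℚ K
  set T := (insert y S).biUnion fun a => (finite_ord_ne_zero a).toFinset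
  have hT : ∀ a ∈ insert y S, a ∈ tUnit T := fun a ha v hv => by
    by_contra h0
    exact hv (Finset.mem_biUnion.2 ⟨a, ha, by simpa using h0⟩)
  have hΓU : Γ ≤ tUnit T := hS ▸ (Subgroup.closure_le _).2 fun a ha =>
    hT a (Finset.mem_insert_of_mem ha)
  have hyU : y ∈ tUnit T := hT y (Finset.mem_insert_self y S)
  have hroot : ∀ {N : ℕ} {w : Kˣ}, N ≠ 0 → w ^ N ∈ tUnit T → w ∈ tUnit T :=
    fun {N w} hN hw v hv => by
      have h1 := hw v hv
      rw [← zpow_natCast, ord_zpow] at h1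
      simpa [hN] using h1
  set U := tUnit T
  set H : Subgroup U := (Γ ⊔ rootsOfUnity (ℓ ^ c) K).subgroupOf U
  have : Group.FG U := (Group.fg_iff_subgroup_fg _).2 (FA.GrunwaldWang.fg_tUnit T)
  have : Group.FG (U ⧸ H) := QuotientGroup.fg H
  obtain ⟨m, hm, h0⟩ := MultSupport.exists_zpow_eq_one hℓ.out
    (QuotientGroup.mk ⟨y, hyU⟩ : U ⧸ H) fun i => by
    obtain ⟨γ, hγ, hf⟩ := h.exists_root_tower ℓ hΓ (c + (i + 1))
    obtain ⟨e, he, w, hw⟩ := exists_pow_descent ℓ (by omega) hf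
    have hsplit : (y / γ / w ^ ℓ ^ (c + (i + 1) - e)) ^ ℓ ^ c = 1 := by
      rw [show ℓ ^ c = ℓ ^ e * ℓ ^ (c - e) by
          rw [← pow_add, Nat.add_sub_cancel' (show e ≤ c from he)],
        pow_mul, div_pow _ (w ^ _), hw, ← pow_mul w, ← pow_add, Nat.sub_add_cancel (by omega),
        div_self', one_pow]
    have hγU : y / γ ∈ U := div_mem hyU (hΓU hγ)
    have hwU : w ∈ U := by
      refine hroot (pow_ne_zero (c + (i + 1)) hℓ.out.ne_zero) ?_
      rw [← hw]
      exact pow_mem hγU _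
    refine ⟨QuotientGroup.mk ⟨w ^ ℓ ^ (c - e), pow_mem hwU _⟩, ?_⟩
    rw [← QuotientGroup.mk_pow]
    refine (QuotientGroup.eq_iff_div_mem).2 ?_
    show y / (w ^ ℓ ^ (c - e)) ^ ℓ ^ (i + 1) ∈ Γ ⊔ rootsOfUnity (ℓ ^ c) K
    rw [← pow_mul, ← pow_add, show c - e + (i + 1) = c + (i + 1) - e by omega,
      show y / w ^ ℓ ^ (c + (i + 1) - e) = γ * (y / γ / w ^ ℓ ^ (c + (i + 1) - e)) by
        rw [mul_div, mul_div_cancel]]
    exact Subgroup.mul_mem_sup hγ ((mem_rootsOfUnity' _ _).2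
      (by rw [← Units.val_pow_eq_pow_val, hsplit, Units.val_one]))
  rw [← QuotientGroup.mk_zpow, QuotientGroup.eq_one_iff] at h0
  obtain ⟨γ, hγ, ξ, hξ, hy⟩ := Subgroup.mem_sup.1 h0
  exact ⟨m, γ, ξ, hm, hγ, (mem_rootsOfUnity _ _).1 hξ, hy.symm⟩

end FA.MultDetect

end
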