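import Fermat.Agent.MultDetect.Separation
import Mathlib.GroupTheory.FiniteAbelian.Basic

/-!
# Schinzel's theorem

An element lying in a finitely generated subgroup of `Kˣ` modulo almost every prime lies in it.
-/

set_option autoImplicit false
set_option linter.unusedSectionVars false

noncomputable section

open NumberField IsDedekindDomain
open FA.ArtinRec
open FA.HasseCyclic (nearOne mem_nearOne)

namespace FA.MultDetect

universe u

variable {K : Type u} [Field K] [NumberField K]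

/-- A finitely generated group splits off a torsion-free part with a bounded cofactor. -/
theorem exists_free_part {G : Type*} [CommGroup G] {Γ : Subgroup G} (hΓ : Γ.FG) :
    ∃ Φ ≤ Γ, Φ.FG ∧ (∀ φ ∈ Φ, IsOfFinOrder φ → φ = 1) ∧
      ∃ D : ℕ, 0 < D ∧ ∀ γ ∈ Γ, ∃ φ ∈ Φ, (γ / φ) ^ D = 1 := by
  have : Group.FG Γ := (Group.fg_iff_subgroup_fg _).2 hΓ
  obtain ⟨ι, j, _, _, p, hp, e, ⟨f⟩⟩ := CommGroup.equiv_free_prod_prod_multiplicative_zmod Γ
  have : ∀ i, NeZero (p i ^ e i) := fun i => ⟨pow_ne_zero _ (hp i).ne_zero⟩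
  let s : (j → Multiplicative ℤ) →* G :=
    (Γ.subtype.comp f.symm.toMonoidHom).comp (MonoidHom.inl _ _)
  have : Group.FG (j → Multiplicative ℤ) := Group.fg_of_surjective
    (f := (MonoidHom.fst _ _).comp f.toMonoidHom) (Prod.fst_surjective.comp f.surjective)
  refine ⟨s.range, ?_, (Group.fg_iff_subgroup_fg _).1 (Group.fg_range s), ?_,
    Nat.card ((i : ι) → Multiplicative (ZMod (p i ^ e i))), Nat.card_pos, fun γ hγ => ?_⟩
  · rintro _ ⟨t, rfl⟩
    exact (f.symm _).2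
  · rintro _ ⟨t, rfl⟩ hfin
    have hinj : Function.Injective s := Γ.subtype_injective.comp
      (f.symm.injective.comp fun a b h => congrArg Prod.fst h)
    obtain ⟨n, hn, h1⟩ := isOfFinOrder_iff_pow_eq_one.1 hfin
    rw [← map_pow] at h1
    have h2 : t ^ n = 1 := hinj (h1.trans (map_one s).symm)
    have ht : t = 1 := funext fun i => by
      have h3 : n • Multiplicative.toAdd (t i) = 0 :=
        congrArg Multiplicative.toAdd (congrFun h2 i)
      exact Multiplicative.toAdd.injective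
        ((smul_eq_zero.1 h3).resolve_left hn.ne')
    rw [ht, map_one]
  · refine ⟨_, ⟨(f ⟨γ, hγ⟩).1, rfl⟩, ?_⟩
    have h1 : (⟨γ, hγ⟩ : Γ) / f.symm ((f ⟨γ, hγ⟩).1, 1) = f.symm (1, (f ⟨γ, hγ⟩).2) := by
      rw [div_eq_iff_eq_mul, ← map_mul]
      exact (f.symm_apply_apply _).symm.trans (congrArg f.symm (Prod.ext (one_mul _).symm
        (mul_one _).symm))
    have h2 := congrArg (fun x : Γ => (x : G) ^
      Nat.card ((i : ι) → Multiplicative (ZMod (p i ^ e i)))) h1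
    refine Eq.trans ?_ (h2.trans ?_)
    · rfl
    · rw [← SubmonoidClass.coe_pow, ← map_pow, Prod.pow_mk, one_pow, pow_card_eq_one',
        ← Prod.one_eq_mk, map_one, OneMemClass.coe_one]

variable {Γ : Subgroup Kˣ} {y : Kˣ}

/-- **Roots of unity**: separated by a prime where the free part has order prime to `ℓ`. -/
theorem DetectAE.mem_of_pow_prime_pow (h : DetectAE Γ y) (hΓ : Γ.FG) (ℓ : ℕ) [hℓ : Fact ℓ.Prime]
    {e : ℕ} (hy : y ^ ℓ ^ e = 1) : y ∈ Γ := by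
  classical
  obtain ⟨B, hB, hyB⟩ := h
  obtain ⟨Φ, hΦΓ, hΦ, htf, D, hD, hdec⟩ := exists_free_part hΓ
  have : NeZero (ℓ ^ e * D) := ⟨(Nat.mul_pos (pow_pos hℓ.out.pos e) hD).ne'⟩
  set bad := B ∪ ⋃ z : rootsOfUnity (ℓ ^ e * D) K,
    {v : HeightOneSpectrum (𝓞 K) | v.valuation K (((z : Kˣ) : K) - 1) ≠ 1 ∧ (z : Kˣ) ≠ 1}
  have hbad : bad.Finite := by
    refine hB.union (Set.finite_iUnion fun z => ?_)
    by_cases hz : (z : Kˣ) = 1
    · exact (Set.finite_empty).subset fun v hv => (hv.2 hz).elim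
    obtain ⟨d, hd⟩ : ∃ d : Kˣ, (d : K) = ((z : Kˣ) : K) - 1 :=
      ⟨Units.mk0 _ (sub_ne_zero.2 fun h1 => hz (Units.ext h1)), rfl⟩
    refine (finite_ord_ne_zero d).subset fun v hv => ?_
    intro h0
    exact hv.1 (by rw [← hd, (ord_eq_iff (v := v)).1 h0, neg_zero, WithZero.exp_zero])
  obtain ⟨v, hv, q, hq, hΦq⟩ := exists_prime_orders_coprime ℓ hΦ htf hbad
  obtain ⟨γ, hγ, hyγ⟩ := hyB v fun h' => hv (Or.inl h')
  obtain ⟨φ, hφ, hφD⟩ := hdec γ hγ
  set z := (y / (γ / φ)) ^ q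
  have hzmem : z ∈ rootsOfUnity (ℓ ^ e * D) K := (mem_rootsOfUnity _ _).2 (by
    rw [← pow_mul, mul_comm q, pow_mul, div_pow, pow_mul, hy, one_pow, mul_comm (ℓ ^ e), pow_mul,
      hφD, one_pow, div_one, one_pow])
  have hzv : z ∈ nearOne v 0 := by
    have h1 : z = (y / γ) ^ q * φ ^ q := by
      rw [← mul_pow, div_mul]
    rw [h1]
    exact mul_mem (pow_mem hyγ q) (hΦq φ hφ)
  have hz1 : z = 1 := by
    by_contra hne
    refine hv (Or.inr (Set.mem_iUnion.2 ⟨⟨z, hzmem⟩, ?_, hne⟩))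
    exact (MultSupport.mem_nearOne_zero_iff.1 hzv).ne
  have hyq : y ^ q ∈ Γ := by
    have h1 : y ^ q = (γ / φ) ^ q := div_eq_one.1 (by rw [← div_pow]; exact hz1)
    rw [h1]
    exact pow_mem (div_mem hγ (hΦΓ hφ)) q
  have hco : Nat.Coprime q (ℓ ^ e) := ((hℓ.out.coprime_iff_not_dvd.2 hq).symm).pow_right e
  have h1 := Nat.gcd_eq_gcd_ab q (ℓ ^ e)
  rw [hco.gcd_eq_one, Nat.cast_one] at h1
  rw [← zpow_one y, h1, zpow_add, zpow_mul, zpow_natCast, zpow_mul, zpow_natCast, hy, one_zpow,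
    mul_one]
  exact zpow_mem hyq _

/-- **Schinzel's theorem on detecting linear dependence.** -/
theorem DetectAE.mem (h : DetectAE Γ y) (hΓ : Γ.FG) : y ∈ Γ := by
  suffices orderOf (QuotientGroup.mk y : Kˣ ⧸ Γ) = 1 from
    (QuotientGroup.eq_one_iff y).1 (orderOf_eq_one_iff.1 this)
  by_contra hne
  obtain ⟨ℓ, hℓ, hdvd⟩ := Nat.exists_prime_and_dvd hne
  have : Fact ℓ.Prime := ⟨hℓ⟩
  obtain ⟨m, γ, ξ, hm, hγ, hξ, hy⟩ := h.exists_zpow_mem ℓ hΓ
  have hξΓ : ξ ∈ Γ := DetectAE.mem_of_pow_prime_pow (by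
    rw [show ξ = y ^ m / γ by rw [hy, mul_div_cancel_left]]
    exact h.zpow_div m hγ) hΓ ℓ hξ
  refine hm ((Int.natCast_dvd_natCast.2 hdvd).trans (orderOf_dvd_iff_zpow_eq_one.2 ?_))
  rw [← QuotientGroup.mk_zpow, QuotientGroup.eq_one_iff, hy]
  exact mul_mem hγ hξΓ

end FA.MultDetect

end
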