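import Fermat.Agent.MultSupport.Main
import Mathlib.FieldTheory.Galois.Infinite

/-!
# Radical extensions by several elements

With the `N`-th roots of unity in the ground field, an element whose `N`-th power lies in the
ground field and which lies in the field of several radicals is a monomial in the radicals.
-/

set_option autoImplicit false
set_option linter.unusedSectionVars false

noncomputable section

open IntermediateField

namespace FA.MultDetect

variable {F Ω : Type*} [Field F] [Field Ω] [Algebra F Ω] [IsGalois F Ω] {N : ℕ} [NeZero N]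

/-- **Kummer**, one radical. -/
theorem exists_eq_mul_pow (hμ : ∀ ζ : Ω, ζ ^ N = 1 → ζ ∈ (algebraMap F Ω).range) {b z : Ω}
    (hb0 : b ≠ 0) (hb : b ^ N ∈ (algebraMap F Ω).range) (hz : z ∈ F⟮b⟯)
    (hzN : z ^ N ∈ (algebraMap F Ω).range) : ∃ (a : ℕ) (f : F), z = algebraMap F Ω f * b ^ a := by
  classical
  by_cases hz0 : z = 0
  · exact ⟨0, 0, by rw [hz0, map_zero, zero_mul]⟩
  have hN : 0 < N := NeZero.pos N
  have hfix : ∀ (σ : Ω ≃ₐ[F] Ω) {u : Ω}, u ∈ (algebraMap F Ω).range → σ u = u := by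
    rintro σ _ ⟨c, rfl⟩
    exact σ.commutes c
  have hroot : ∀ (σ : Ω ≃ₐ[F] Ω) {s : Ω}, s ≠ 0 → s ^ N ∈ (algebraMap F Ω).range →
      (σ s / s) ^ N = 1 := fun σ {s} hs0 hs => by
    rw [div_pow, ← map_pow, hfix σ hs, div_self (pow_ne_zero _ hs0)]
  let χ : (Ω ≃ₐ[F] Ω) →* Ωˣ := MonoidHom.mk'
    (fun σ => Units.mk0 (σ b / b) (div_ne_zero ((map_ne_zero σ).2 hb0) hb0))
    fun σ τ => Units.ext (by
      show (σ * τ) b / b = σ b / b * (τ b / b)
      conv_lhs => rw [AlgEquiv.mul_apply, show τ b = τ b / b * b from (div_mul_cancel₀ _ hb0).symm,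
        map_mul, hfix σ (hμ _ (hroot τ hb0 hb))]
      ring)
  have hdet : ∀ σ τ : Ω ≃ₐ[F] Ω, σ b = τ b → σ z = τ z := fun σ τ hστ => by
    have hle : σ.toAlgHom.comp (F⟮b⟯).val = τ.toAlgHom.comp (F⟮b⟯).val :=
      (adjoin.powerBasis (Algebra.IsIntegral.isIntegral b)).algHom_ext hστ
    exact DFunLike.congr_fun hle ⟨z, hz⟩
  have hχ : ∀ σ, χ σ ^ N = 1 := fun σ => Units.ext (by
    rw [Units.val_pow_eq_pow_val, Units.val_one]; exact hroot σ hb0 hb)
  have hsub : χ.range ≤ rootsOfUnity N Ω := by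
    rintro _ ⟨σ, rfl⟩
    exact hχ σ
  have : IsCyclic χ.range :=
    isCyclic_of_injective (Subgroup.inclusion hsub) (Subgroup.inclusion_injective hsub)
  obtain ⟨⟨g, σ₀, hσ₀⟩, hg⟩ := IsCyclic.exists_generator (α := χ.range)
  obtain ⟨c₀, hc₀⟩ : ∃ c : Ω, c = σ₀ z / z := ⟨_, rfl⟩
  have hc₀N : c₀ ^ N = 1 := hc₀ ▸ hroot σ₀ hz0 hzN
  have hd : 0 < orderOf g := orderOf_pos_iff.2
    (isOfFinOrder_iff_pow_eq_one.2 ⟨N, hN, by rw [← hσ₀]; exact hχ σ₀⟩)
  have hiter : ∀ t : ℕ, (σ₀ ^ t) z = c₀ ^ t * z := fun t => by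
    induction t with
    | zero => simp
    | succ t ih => rw [pow_succ', AlgEquiv.mul_apply, ih, map_mul,
        hfix σ₀ (hμ _ (by rw [← pow_mul, mul_comm, pow_mul, hc₀N, one_pow])), hc₀, pow_succ,
        mul_assoc, div_mul_cancel₀ _ hz0]
  have hbpow : ∀ t : ℕ, (σ₀ ^ t) b = ((g ^ t : Ωˣ) : Ω) * b := fun t => by
    rw [← hσ₀, ← map_pow]
    exact (div_mul_cancel₀ _ hb0).symm
  have hc₀d : c₀ ^ orderOf g = 1 := by
    have h1 := hdet (σ₀ ^ orderOf g) 1 (by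
      rw [hbpow, pow_orderOf_eq_one, Units.val_one, one_mul, AlgEquiv.one_apply])
    rw [hiter, AlgEquiv.one_apply] at h1
    exact mul_right_cancel₀ hz0 (h1.trans (one_mul _).symm)
  have : NeZero (orderOf g) := ⟨hd.ne'⟩
  obtain ⟨a, -, ha⟩ := ((IsPrimitiveRoot.coe_units_iff).2
    (IsPrimitiveRoot.orderOf g)).eq_pow_of_pow_eq_one hc₀d
  have hfixed : ∀ σ : Ω ≃ₐ[F] Ω, σ (z / b ^ a) = z / b ^ a := fun σ => by
    obtain ⟨i, hi⟩ := Subgroup.mem_zpowers_iff.1 (hg ⟨χ σ, σ, rfl⟩)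
    have hi' : g ^ i = χ σ := congrArg Subtype.val hi
    obtain ⟨t, ht⟩ : ∃ t : ℕ, g ^ t = χ σ := by
      refine ⟨(i % (orderOf g : ℤ)).toNat, ?_⟩
      rw [← zpow_natCast, Int.toNat_of_nonneg (Int.emod_nonneg _ (by omega)), zpow_mod_orderOf, hi']
    have hσb : σ b = (σ₀ ^ t) b := by
      rw [hbpow, ht]
      exact (div_mul_cancel₀ _ hb0).symm
    rw [map_div₀, map_pow, hdet σ _ hσb, hσb, hiter, hbpow, ← ha, Units.val_pow_eq_pow_val,
      mul_pow, ← pow_mul, ← pow_mul, mul_comm a t]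
    exact mul_div_mul_left _ _ (pow_ne_zero _ (Units.ne_zero g))
  obtain ⟨f, hf⟩ := (InfiniteGalois.mem_bot_iff_fixed _).2 hfixed
  refine ⟨a, f, ?_⟩
  rw [show algebraMap F Ω f = z / b ^ a from hf, div_mul_cancel₀ _ (pow_ne_zero _ hb0)]

/-- **Kummer**, several radicals. -/
theorem exists_eq_mul_monomial (hμ : ∀ ζ : Ω, ζ ^ N = 1 → ζ ∈ (algebraMap F Ω).range)
    (s : Finset Ω) (hs : ∀ b ∈ s, b ≠ 0 ∧ b ^ N ∈ (algebraMap F Ω).range) {z : Ω}
    (hz : z ∈ adjoin F (s : Set Ω)) (hzN : z ^ N ∈ (algebraMap F Ω).range) :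
    ∃ (f : F) (g : Ω), g ∈ Submonoid.closure (s : Set Ω) ∧ z = algebraMap F Ω f * g := by
  classical
  induction s using Finset.induction_on generalizing z with
  | empty =>
    rw [Finset.coe_empty, adjoin_empty, mem_bot] at hz
    obtain ⟨f, rfl⟩ := hz
    exact ⟨f, 1, one_mem _, (mul_one _).symm⟩
  | @insert b s hb ih =>
    obtain ⟨hb0, hbN⟩ := hs b (Finset.mem_insert_self b s)
    let L : IntermediateField F Ω := adjoin F (s : Set Ω)
    have : IsGalois L Ω := IsGalois.tower_top_of_isGalois F L Ω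
    have hFL : ∀ {u : Ω}, u ∈ (algebraMap F Ω).range → u ∈ (algebraMap L Ω).range := by
      rintro _ ⟨c, rfl⟩
      exact ⟨algebraMap F L c, (IsScalarTower.algebraMap_apply F L Ω c).symm⟩
    rw [Finset.coe_insert, Set.insert_eq, Set.union_comm, ← adjoin_adjoin_left,
      mem_restrictScalars] at hz
    obtain ⟨a, f, hf⟩ := exists_eq_mul_pow (F := L) (N := N) (fun ζ hζ => hFL (hμ ζ hζ)) hb0
      (hFL hbN) hz (hFL hzN)
    have hfN : (f : Ω) ^ N ∈ (algebraMap F Ω).range := by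
      rw [show (f : Ω) ^ N = z ^ N / (b ^ N) ^ a by
        rw [hf, mul_pow, ← pow_mul b, ← pow_mul b, mul_comm a N,
          mul_div_cancel_right₀ _ (pow_ne_zero _ hb0)]
        rfl]
      obtain ⟨u, hu⟩ := hzN
      obtain ⟨w, hw⟩ := hbN
      exact ⟨u / w ^ a, by rw [map_div₀, map_pow, hu, hw]⟩
    obtain ⟨f', g, hg, hfg⟩ := ih (fun c hc => hs c (Finset.mem_insert_of_mem hc)) f.2 hfN
    refine ⟨f', g * b ^ a, mul_mem (Submonoid.closure_mono (by simp) hg)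
      (pow_mem (Submonoid.subset_closure (by simp)) a), ?_⟩
    rw [hf, ← mul_assoc, ← hfg]
    rfl

end FA.MultDetect

end
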