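import Fermat.Agent.MultDetect.Kummer

/-!
# Roots of elements of a torsion-free subgroup

By the Artin–Rees lemma roots in the field of elements of a finitely generated torsion-free
subgroup lie in it up to a bounded exponent, and so do roots in the cyclotomic tower.
-/

set_option autoImplicit false
set_option linter.unusedSectionVars false

noncomputable section

open NumberField IsDedekindDomain
open FA.ArtinRec FA.LocalCFT

namespace FA.MultDetect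

/-- **Artin–Rees** in a finitely generated abelian group. -/
theorem exists_pow_root_bound {G : Type*} [CommGroup G] [Group.FG G] (ℓ : ℕ) (Φ : Subgroup G) :
    ∃ k : ℕ, ∀ n ≥ k, ∀ φ ∈ Φ, (∃ w : G, φ = w ^ ℓ ^ n) → ∃ δ ∈ Φ, φ = δ ^ ℓ ^ (n - k) := by
  have : Module.Finite ℤ (Additive G) := Module.Finite.iff_addGroup_fg.2 inferInstance
  set N : Submodule ℤ (Additive G) := AddSubgroup.toIntSubmodule (Subgroup.toAddSubgroup Φ)
  obtain ⟨k, hk⟩ := Ideal.exists_pow_inf_eq_pow_smul (Ideal.span {(ℓ : ℤ)}) N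
  refine ⟨k, fun n hn φ hφ ⟨w, hw⟩ => ?_⟩
  have h1 : Additive.ofMul φ ∈ Ideal.span {(ℓ : ℤ)} ^ n • (⊤ : Submodule ℤ (Additive G)) ⊓ N := by
    refine ⟨?_, hφ⟩
    rw [hw, ofMul_pow, ← natCast_zsmul, Nat.cast_pow]
    exact Submodule.smul_mem_smul (Ideal.pow_mem_pow (Ideal.mem_span_singleton_self _) n)
      Submodule.mem_top
  rw [hk n hn, Ideal.span_singleton_pow ((ℓ : ℤ)) (n - k),
    Submodule.ideal_span_singleton_smul] at h1
  obtain ⟨b, hb, hb'⟩ := h1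
  refine ⟨Additive.toMul b, hb.2, ?_⟩
  apply Additive.ofMul.injective
  rw [ofMul_pow, ← natCast_zsmul, Nat.cast_pow]
  exact hb'.symm

variable {K : Type*} [Field K] [NumberField K] (ℓ : ℕ) [hℓ : Fact ℓ.Prime]

/-- **The bounded failure of Kummer theory**: an element with an `ℓ ^ n`-th root in the tower is
almost an `ℓ ^ n`-th power in the group. -/
theorem exists_tower_root_bound {Φ : Subgroup Kˣ} (hΦ : Φ.FG)
    (htf : ∀ φ ∈ Φ, IsOfFinOrder φ → φ = 1) :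
    ∃ d : ℕ, 0 < d ∧ ∀ n ≥ d, ∀ φ ∈ Φ,
      (∃ f : tower K ℓ n, f ^ ℓ ^ n = algebraMap K (tower K ℓ n) ((φ : Kˣ) : K)) →
      ∃ δ ∈ Φ, φ = δ ^ ℓ ^ (n - d) := by
  classical
  obtain ⟨S, hS⟩ := id hΦ
  set c := Module.finrank ℚ K
  set T := S.biUnion fun a => (finite_ord_ne_zero a).toFinset
  have hΦU : Φ ≤ tUnit T := hS ▸ (Subgroup.closure_le _).2 fun a ha v hv => by
    by_contra h0
    exact hv (Finset.mem_biUnion.2 ⟨a, ha, by simpa using h0⟩)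
  have : Group.FG (tUnit T) := (Group.fg_iff_subgroup_fg _).2 (FA.GrunwaldWang.fg_tUnit T)
  obtain ⟨k, hk⟩ := exists_pow_root_bound ℓ (Φ.subgroupOf (tUnit T))
  refine ⟨k + c + 1, Nat.succ_pos _, fun n hn φ hφ hf => ?_⟩
  obtain ⟨e, he, w, hw⟩ := exists_pow_descent ℓ (by omega) hf
  have hφw : φ ^ ℓ ^ c = (w ^ ℓ ^ (c - e)) ^ ℓ ^ n := by
    rw [← pow_mul w, mul_comm, pow_mul, ← hw, ← pow_mul, ← pow_add, Nat.add_sub_cancel' he]
  have hwU : w ^ ℓ ^ (c - e) ∈ tUnit T := fun v hv => by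
    have h1 := pow_mem (hΦU hφ) (ℓ ^ c) v hv
    rw [hφw, ← zpow_natCast, ord_zpow] at h1
    simpa [hℓ.out.ne_zero] using h1
  obtain ⟨δ, hδ, hδφ⟩ := hk n (by omega) ⟨φ ^ ℓ ^ c, pow_mem (hΦU hφ) _⟩
    (Subgroup.mem_subgroupOf.2 (pow_mem hφ _)) ⟨⟨_, hwU⟩, Subtype.ext hφw⟩
  have hδφ' : φ ^ ℓ ^ c = (δ : Kˣ) ^ ℓ ^ (n - k) := congrArg Subtype.val hδφ
  have hone : φ / (δ : Kˣ) ^ ℓ ^ (n - k - c) = 1 := htf _
    (div_mem hφ (pow_mem hδ _)) (isOfFinOrder_iff_pow_eq_one.2 ⟨ℓ ^ c, pow_pos hℓ.out.pos c, by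
      rw [div_pow, ← pow_mul, ← pow_add, Nat.sub_add_cancel (by omega), hδφ', div_self']⟩)
  refine ⟨(δ : Kˣ) ^ ℓ, pow_mem hδ _, ?_⟩
  rw [← pow_mul, ← pow_succ', show n - (k + c + 1) + 1 = n - k - c by omega, ← div_eq_one]
  exact hone

end FA.MultDetect

end
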