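import Fermat.Agent.MultDetect.RootBound

/-!
# Primes at which the orders are prime to `ℓ`

For a finitely generated torsion-free group some field of `ℓ ^ n`-th roots lacks the next root of
unity; at a suitable prime of it the reductions of the group have order prime to `ℓ`.
-/

set_option autoImplicit false
set_option linter.unusedSectionVars false

noncomputable section

open NumberField IsDedekindDomain IntermediateField
open FA.ArtinRec FA.LocalCFT
open FA.HasseCyclic (nearOne)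

namespace FA.MultDetect

universe u

variable {K : Type u} [Field K] [NumberField K] (ℓ : ℕ) [hℓ : Fact ℓ.Prime]

local notation "Ω" => AlgebraicClosure K

/-- **Kummer fields do not contain all roots of unity.** -/
theorem exists_root_not_mem {Φ : Subgroup Kˣ} (hΦ : Φ.FG)
    (htf : ∀ φ ∈ Φ, IsOfFinOrder φ → φ = 1) :
    ∃ n, 1 ≤ n ∧ ∃ M : IntermediateField (tower K ℓ n) Ω,
      FiniteDimensional (tower K ℓ n) M ∧
      (∀ φ ∈ Φ, ∃ r : M, r ^ ℓ ^ n = algebraMap K M ((φ : Kˣ) : K)) ∧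
      towerRoot K ℓ (n + 1) ∉ M := by
  classical
  obtain ⟨d₀, -, hd₀⟩ := exists_tower_root_bound ℓ hΦ htf
  obtain ⟨d, hd0, hd⟩ : ∃ d, 1 ≤ d ∧ ∀ n ≥ d, ∀ φ ∈ Φ,
      (∃ f : tower K ℓ n, f ^ ℓ ^ n = algebraMap K (tower K ℓ n) ((φ ^ ℓ : Kˣ) : K)) →
      ∃ δ ∈ Φ, φ = δ ^ ℓ ^ (n - d) := by
    refine ⟨d₀ + 1, Nat.succ_pos _, fun n hn φ hφ hf => ?_⟩
    obtain ⟨δ, hδ, h⟩ := hd₀ n (by omega) _ (pow_mem hφ ℓ) hf
    refine ⟨δ, hδ, div_eq_one.1 (htf _ (div_mem hφ (pow_mem hδ _))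
      (isOfFinOrder_iff_pow_eq_one.2 ⟨ℓ, hℓ.out.pos, ?_⟩))⟩
    rw [div_pow, h, ← pow_mul, ← pow_succ, show n - (d₀ + 1) + 1 = n - d₀ by omega, div_self']
  obtain ⟨S, rfl⟩ := hΦ
  by_contra! hall
  have : NeZero (ℓ ^ d) := ⟨pow_ne_zero d hℓ.out.ne_zero⟩
  have hK : ∀ {n : ℕ} (c : K), algebraMap K Ω c ∈ (algebraMap (tower K ℓ n) Ω).range :=
    fun {n} c => ⟨algebraMap K (tower K ℓ n) c,
      (IsScalarTower.algebraMap_apply K (tower K ℓ n) Ω c).symm⟩
  -- the radicals of bounded degree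
  set X : IntermediateField K Ω :=
    tower K ℓ d ⊔ adjoin K ((S.image (radical (ℓ ^ d)) : Finset Ω) : Set Ω)
  have : FiniteDimensional K (adjoin K ((S.image (radical (ℓ ^ d)) : Finset Ω) : Set Ω)) :=
    finiteDimensional_adjoin fun x _ => Algebra.IsIntegral.isIntegral x
  have : FiniteDimensional K X := IntermediateField.finiteDimensional_sup _ _
  have : NumberField X := NumberField.of_module_finite K X
  have hrad : ∀ δ ∈ Subgroup.closure (S : Set Kˣ), ∃ r : X,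
      (r : Ω) ≠ 0 ∧ (r : Ω) ^ ℓ ^ d = algebraMap K Ω (δ : K) := by
    intro δ hδ
    induction hδ using Subgroup.closure_induction with
    | mem a ha => exact ⟨⟨radical (ℓ ^ d) a, le_sup_right (a := tower K ℓ d)
        (subset_adjoin K _ (Finset.mem_image_of_mem _ ha))⟩, radical_ne_zero _ a, radical_pow _ a⟩
    | one => exact ⟨1, by simp, by simp⟩
    | mul a b _ _ h h' =>
      obtain ⟨r, hr0, hr⟩ := h
      obtain ⟨r', hr0', hr'⟩ := h'
      exact ⟨r * r', mul_ne_zero hr0 hr0', by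
        rw [MulMemClass.coe_mul, mul_pow, hr, hr', Units.val_mul, map_mul]⟩
    | inv a _ h =>
      obtain ⟨r, hr0, hr⟩ := h
      exact ⟨r⁻¹, by simpa using hr0, by
        rw [IntermediateField.coe_inv, inv_pow, hr, Units.val_inv_eq_inv_val, map_inv₀]⟩
  have hstep : ∀ n, d ≤ n → tower K ℓ n ≤ X → tower K ℓ (n + 1) ≤ X := fun n hn hle => by
    set N := ℓ ^ n
    set F := tower K ℓ n
    have : NeZero N := ⟨pow_ne_zero n hℓ.out.ne_zero⟩
    have : IsGalois K Ω := { }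
    have : IsGalois F Ω := IsGalois.tower_top_of_isGalois K F Ω
    let M : IntermediateField F Ω := adjoin F ((S.image (radical N) : Finset Ω) : Set Ω)
    have hroots : ∀ φ ∈ Subgroup.closure (S : Set Kˣ), ∃ r : M,
        r ^ N = algebraMap K M ((φ : Kˣ) : K) := by
      intro φ hφ
      induction hφ using Subgroup.closure_induction with
      | mem a ha => exact ⟨⟨radical N a, subset_adjoin F _ (Finset.mem_image_of_mem _ ha)⟩,
          Subtype.ext (radical_pow N a)⟩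
      | one => exact ⟨1, by simp⟩
      | mul a b _ _ h h' =>
        obtain ⟨r, hr⟩ := h
        obtain ⟨r', hr'⟩ := h'
        exact ⟨r * r', by rw [mul_pow, hr, hr', Units.val_mul, map_mul]⟩
      | inv a _ h =>
        obtain ⟨r, hr⟩ := h
        exact ⟨r⁻¹, by rw [inv_pow, hr, Units.val_inv_eq_inv_val, map_inv₀]⟩
    have hζM := hall n (by omega) M
      (finiteDimensional_adjoin fun x _ => Algebra.IsIntegral.isIntegral x) hroots
    set ζ := towerRoot K ℓ (n + 1)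
    have hζ := towerRoot_spec K ℓ (n + 1)
    have hζN : ζ ^ N ∈ (algebraMap F Ω).range :=
      ⟨⟨ζ ^ N, tower_le K ℓ (by omega : 1 ≤ n) (mem_tower_of_pow_eq_one K ℓ (k := 1)
        (by rw [pow_one, ← pow_mul, ← pow_succ, hζ.pow_eq_one]))⟩, rfl⟩
    obtain ⟨f, g, hg, hfg⟩ := exists_eq_mul_monomial (F := F) (N := N)
      (fun x hx => ⟨⟨x, mem_tower_of_pow_eq_one K ℓ hx⟩, rfl⟩) (S.image (radical N))
      (fun b hb => by
        obtain ⟨a, -, rfl⟩ := Finset.mem_image.1 hb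
        exact ⟨radical_ne_zero N a, by rw [radical_pow]; exact hK _⟩)
      hζM hζN
    rw [Finset.coe_image] at hg
    obtain ⟨φ, hφ, hgφ⟩ := exists_pow_eq_of_mem_closure N hg
    have hf1 : (f : Ω) ≠ 0 := fun h0 => hζ.ne_zero (pow_ne_zero _ hℓ.out.ne_zero)
      (hfg.trans (by rw [show algebraMap F Ω f = (f : Ω) from rfl, h0, zero_mul]))
    have hg0 : g ≠ 0 := fun h0 => φ.ne_zero ((map_eq_zero (algebraMap K Ω)).1
      (by rw [← hgφ, h0, zero_pow (NeZero.ne N)]))
    -- `φ ^ ℓ` is a power in the tower, so `φ` is nearly a power in the group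
    obtain ⟨δ, hδ, hδφ⟩ := hd n hn φ hφ ⟨((f : F) ^ ℓ)⁻¹, Subtype.ext (by
      show (((f : Ω) ^ ℓ)⁻¹) ^ N = algebraMap K Ω ((φ ^ ℓ : Kˣ) : K)
      rw [Units.val_pow_eq_pow_val, map_pow, ← hgφ, inv_pow]
      refine (eq_inv_of_mul_eq_one_right ?_).symm
      rw [← pow_mul (f : Ω), ← pow_mul g, mul_comm N ℓ, ← mul_pow,
        show (f : Ω) * g = ζ from hfg.symm, mul_comm, ← pow_succ, hζ.pow_eq_one])⟩
    obtain ⟨r, hr0, hrδ⟩ := hrad δ hδ
    -- so the monomial `g` is a radical of bounded degree times a root of unity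
    have hu : g ^ N = (r : Ω) ^ N := by
      rw [hgφ, hδφ, Units.val_pow_eq_pow_val, map_pow, ← hrδ, ← pow_mul, ← pow_add,
        Nat.add_sub_cancel' hn]
    have hρ : g / r ∈ tower K ℓ n := mem_tower_of_pow_eq_one K ℓ (k := n) (by
      rw [div_pow, hu, div_self (pow_ne_zero _ hr0)])
    refine adjoin_simple_le_iff.2 ?_
    show ζ ∈ X
    rw [hfg, show algebraMap F Ω f = (f : Ω) from rfl, ← div_mul_cancel₀ g hr0]
    exact mul_mem (hle f.2) (mul_mem (hle hρ) r.2)
  have hall' : ∀ m, tower K ℓ (d + m) ≤ X := fun m => by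
    induction m with
    | zero => exact le_sup_left
    | succ m ih => exact hstep (d + m) (Nat.le_add_right _ _) ih
  -- but a number field has few roots of unity
  set D := Module.finrank ℚ X
  set z : X := ⟨towerRoot K ℓ (d + (D + 1)),
    hall' (D + 1) (mem_adjoin_simple_self K _)⟩
  have hz : IsPrimitiveRoot z (ℓ ^ (d + (D + 1))) :=
    IsPrimitiveRoot.of_map_of_injective (f := X.val) (towerRoot_spec K ℓ (d + (D + 1)))
      X.val.injective
  have h := totient_le_finrank (pow_pos hℓ.out.pos _) hz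
  rw [Nat.totient_prime_pow hℓ.out (by omega)] at h
  have h2 : D < ℓ ^ D := Nat.lt_pow_self hℓ.out.one_lt
  have h3 : ℓ ^ D ≤ ℓ ^ (d + (D + 1) - 1) := Nat.pow_le_pow_right hℓ.out.pos (by omega)
  have h4 : ℓ ^ (d + (D + 1) - 1) ≤ ℓ ^ (d + (D + 1) - 1) * (ℓ - 1) :=
    Nat.le_mul_of_pos_right _ (by have := hℓ.out.two_le; omega)
  omega

/-- **Separation**: outside any finite set there is a prime at which all reductions of `Φ` have
order prime to `ℓ`. -/
theorem exists_prime_orders_coprime {Φ : Subgroup Kˣ} (hΦ : Φ.FG)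
    (htf : ∀ φ ∈ Φ, IsOfFinOrder φ → φ = 1) {B : Set (HeightOneSpectrum (𝓞 K))} (hB : B.Finite) :
    ∃ v ∉ B, ∃ q : ℕ, ¬ ℓ ∣ q ∧ ∀ φ ∈ Φ, φ ^ q ∈ nearOne v 0 := by
  classical
  obtain ⟨n, hn, M, hMfin, hroots, hζM⟩ := exists_root_not_mem ℓ hΦ htf
  obtain ⟨S, hS⟩ := id hΦ
  set N := ℓ ^ n
  have : NeZero N := ⟨pow_ne_zero n hℓ.out.ne_zero⟩
  have : NumberField M := NumberField.of_module_finite (tower K ℓ n) M
  have hgen : IsPrimitiveRoot (algebraMap (tower K ℓ n) M (towerGen K ℓ n)) N :=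
    (towerGen_spec K ℓ n).map_of_injective (f := algebraMap (tower K ℓ n) M)
      (algebraMap (tower K ℓ n) M).injective
  have : HasEnoughRootsOfUnity M N := ⟨⟨_, hgen⟩, inferInstance⟩
  have : NeZero ℓ := ⟨hℓ.out.ne_zero⟩
  have : HasEnoughRootsOfUnity M ℓ := ⟨⟨_, hgen.pow (NeZero.pos N)
    (show N = ℓ ^ (n - 1) * ℓ by rw [← pow_succ, Nat.sub_add_cancel hn])⟩, inferInstance⟩
  set ε : Mˣ := Units.mk0 _ (hgen.ne_zero (NeZero.ne N))
  set bad := ↑(primesAbove M hB.toFinset) ∪ {Q : HeightOneSpectrum (𝓞 M) | (ℓ : 𝓞 M) ∈ Q.asIdeal} ∪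
    ⋃ a ∈ S, {Q : HeightOneSpectrum (𝓞 M) | ord Q (baseU (L := M) a) ≠ 0}
  have hbad : bad.Finite := by
    refine ((primesAbove M hB.toFinset).finite_toSet.union ?_).union
      (S.finite_toSet.biUnion fun a _ => finite_ord_ne_zero _)
    exact (Ideal.finite_factors (I := Ideal.span {(ℓ : 𝓞 M)})
      (by simpa using hℓ.out.ne_zero)).subset fun Q hQ => Ideal.dvd_span_singleton.2 hQ
  obtain ⟨Q, hQ, hQn⟩ : ∃ Q ∉ bad, ¬ ℓ ^ (n + 1) ∣ Nat.card (𝓞 M ⧸ Q.asIdeal)ˣ := by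
    by_contra! hall
    have hres : IsResidueAE ℓ ε := by
      refine ⟨bad, hbad, fun Q hQ => ?_⟩
      have h1 := hall Q hQ
      refine MultSupport.exists_pow_congr ((dvd_pow_self ℓ (Nat.succ_ne_zero n)).trans h1)
        hℓ.out.ne_zero ?_ ?_
      · have h2 : ord Q (ε ^ N) = 0 := by
          rw [show ε ^ N = 1 from Units.ext hgen.pow_eq_one, ord_one]
        rw [← zpow_natCast, ord_zpow] at h2
        simpa [NeZero.ne N] using h2
      · obtain ⟨t, ht⟩ := h1
        rw [ht, pow_succ', mul_assoc, Nat.mul_div_cancel_left _ hℓ.out.pos, pow_mul,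
          show ε ^ N = 1 from Units.ext hgen.pow_eq_one, one_pow]
        exact one_mem _
    obtain ⟨z, hz⟩ := hres.exists_root M
    refine hζM ?_
    have hz' : ((z : M) : Ω) ^ ℓ = towerRoot K ℓ n := congrArg Subtype.val hz
    have hprim : IsPrimitiveRoot ((z : M) : Ω) (ℓ ^ (n + 1)) := by
      rw [IsPrimitiveRoot.iff_orderOf]
      refine orderOf_eq_prime_pow ?_ ?_
      · intro h
        rw [show ℓ ^ n = ℓ * ℓ ^ (n - 1) by rw [← pow_succ', Nat.sub_add_cancel hn], pow_mul,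
          hz'] at h
        exact (towerRoot_spec K ℓ n).pow_ne_one_of_pos_of_lt (pow_ne_zero _ hℓ.out.ne_zero)
          (Nat.pow_lt_pow_right hℓ.out.one_lt (by omega)) h
      · rw [pow_succ', pow_mul, hz', (towerRoot_spec K ℓ n).pow_eq_one]
    have : NeZero (ℓ ^ (n + 1)) := ⟨pow_ne_zero _ hℓ.out.ne_zero⟩
    obtain ⟨m, -, hm⟩ := hprim.eq_pow_of_pow_eq_one (towerRoot_spec K ℓ (n + 1)).pow_eq_one
    rw [← hm]
    exact pow_mem (SetLike.coe_mem _) m
  simp only [bad, Set.mem_union, Finset.mem_coe, mem_primesAbove, Set.Finite.mem_toFinset,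
    Set.mem_ofPred_eq, Set.mem_iUnion, not_or, not_exists, not_not] at hQ
  obtain ⟨⟨hQB, hQℓ⟩, hQS⟩ := hQ
  have hQN : (N : 𝓞 M) ∉ Q.asIdeal := by
    rw [Nat.cast_pow]
    exact fun h => hQℓ (Q.isPrime.mem_of_pow_mem n h)
  have hordΦ : ∀ φ ∈ Φ, ord Q (baseU (L := M) φ) = 0 := fun φ hφ => by
    rw [← hS] at hφ
    induction hφ using Subgroup.closure_induction with
    | mem a ha => exact hQS a ha
    | one => rw [map_one, ord_one]
    | mul a b _ _ ha hb => rw [map_mul, ord_mul, ha, hb, add_zero]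
    | inv a _ ha => rw [map_inv, ord_inv, ha, neg_zero]
  obtain ⟨q, hq⟩ := MultSupport.dvd_card_units (M := M) hQN
  refine ⟨belowP K Q, hQB, q, fun ⟨t, ht⟩ => hQn ⟨t, ?_⟩, fun φ hφ => ?_⟩
  · rw [hq, ht, pow_succ, mul_assoc]
  obtain ⟨r, hr⟩ := hroots φ hφ
  have hr0 : r ≠ 0 := fun h0 => φ.ne_zero ((map_eq_zero (algebraMap K M)).1
    (by rw [← hr, h0, zero_pow (NeZero.ne N)]))
  have hrφ : Units.mk0 r hr0 ^ N = baseU φ := Units.ext (by
    rw [Units.val_pow_eq_pow_val, Units.val_mk0, hr, baseU_val])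
  have hord : ord Q (Units.mk0 r hr0) = 0 := by
    have h1 := hordΦ φ hφ
    rw [← hrφ, ← zpow_natCast, ord_zpow] at h1
    simpa [NeZero.ne N] using h1
  rw [← MultSupport.baseU_mem_nearOne_iff (M := M) (Q := Q), map_pow, ← hrφ, ← pow_mul, ← hq]
  exact MultSupport.pow_card_units_mem_nearOne hord

end FA.MultDetect

end
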